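import Fermat.Agent.TwistCount.Abscissa
import Fermat.Agent.TwistRankTwo.Family
import Fermat.Agent.NeronSpecialisation.Main
import Mathlib.NumberTheory.Height.NumberField

/-!
# The specialisations of the family with two points

At a rational `t` the two points have abscissae of height `4 h (t) + O (1)` on `y² = x³ + A x + B`,
and their sum and difference have abscissae of height at most `12 h (t) + O (1)`. So they are
dependent at finitely many `t` only.
-/

set_option autoImplicit false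
set_option linter.style.haveILetI false

noncomputable section

open WeierstrassCurve Polynomial OnePoint Height
open FA.ArithmeticDynamics FA.TwistRankTwo
open FA.FunctionFieldRank (pointMap pointMap_some pointMap_injective)
open scoped Classical

attribute [local instance 2000] FA.NeronSpecialisation.ratDecEq

namespace FA.TwistCount

variable {A B : ℚ}

/-- The numerators of the abscissae of the sum and of the difference. -/
def sumNum (A B : ℚ) : ℚ[X] :=
  valPoly A B - C (B ^ 2) * (1 + X ^ 3) ^ 2 * numX B * (1 + X ^ 2)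

/-- Their denominators. -/
def sumDen (A B : ℚ) : ℚ[X] := denX A * C (B ^ 2) * (1 + X ^ 3) ^ 2

/-- The same for the difference. -/
def diffNum (A B : ℚ) : ℚ[X] :=
  valPoly A B - C (B ^ 2) * (1 - X ^ 3) ^ 2 * numX B * (1 + X ^ 2)

/-- The same for the difference. -/
def diffDen (A B : ℚ) : ℚ[X] := denX A * C (B ^ 2) * (1 - X ^ 3) ^ 2

theorem degree_forms (A B : ℚ) :
    (sumNum A B).natDegree ≤ 12 ∧ (sumDen A B).natDegree ≤ 12 ∧
      (diffNum A B).natDegree ≤ 12 ∧ (diffDen A B).natDegree ≤ 12 := by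
  refine ⟨?_, ?_, ?_, ?_⟩ <;> simp only [sumNum, sumDen, diffNum, diffDen, valPoly, numX, denX] <;>
    compute_degree <;> norm_num

/-- The height of the value of a rational function of degree at most `d`. -/
theorem exists_height_le {K : Type*} [Field K] [AdmissibleAbsValues K] {p q : K[X]} {d : ℕ}
    (hp : p.natDegree ≤ d) (hq : q.natDegree ≤ d) :
    ∃ C, ∀ z : K, q.eval z ≠ 0 →
      pointHeight ((p.eval z / q.eval z : K) : OnePoint K) ≤ d * pointHeight (z : OnePoint K) + C := by
  obtain ⟨C, hC⟩ := logHeight_eval_le' (p := ![p.homogenize d, q.homogenize d]) (N := d)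
    fun i => by fin_cases i <;> simp
  refine ⟨C, fun z hz => ?_⟩
  have h := hC (rep (z : OnePoint K))
  have e : (fun j => (![p.homogenize d, q.homogenize d] j).eval (rep (z : OnePoint K))) =
      q.eval z • ![p.eval z / q.eval z, 1] := by
    ext j
    fin_cases j
    · simpa [form, rep_coe, mul_div_cancel₀ _ hz] using form_coe p hp z
    · simpa [form, rep_coe] using form_coe q hq z
  rw [e, logHeight_smul_eq_logHeight _ hz] at h
  show logHeight (rep _) ≤ _ * logHeight (rep _) + C
  rw [rep_coe]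
  linarith

/-- The height of the value of a reduced rational function of degree `d`. -/
theorem exists_height_ge {K : Type*} [Field K] [AdmissibleAbsValues K] {p q : K[X]}
    (hc : IsCoprime p q) {d : ℕ} (hd : d ≤ p.natDegree) :
    ∃ C, ∀ z : K, q.eval z ≠ 0 →
      d * pointHeight (z : OnePoint K) - C ≤ pointHeight ((p.eval z / q.eval z : K) : OnePoint K) := by
  obtain ⟨C, hC⟩ := exists_height_bound hc
  refine ⟨C, fun z hz => ?_⟩
  have h := (abs_le.1 (hC (z : OnePoint K))).1
  rw [ratApply_coe, if_neg hz] at h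
  have hdd : (d : ℝ) ≤ FA.ArithmeticDynamics.degree p q :=
    Nat.cast_le.2 (hd.trans (natDegree_left_le p q))
  have h0 : 0 ≤ pointHeight (z : OnePoint K) := logHeight_nonneg _
  linarith [mul_le_mul_of_nonneg_right hdd h0]

/-- The curve `y² = x³ + A x + B`. -/
def baseCurve (A B : ℚ) : WeierstrassCurve ℚ := ⟨0, 0, 0, A, B⟩

/-- The twist by `D`. -/
def twistedCurve (A B D : ℚ) : WeierstrassCurve ℚ := ⟨0, 0, 0, A * D ^ 2, B * D ^ 3⟩

theorem baseCurve_isElliptic (hd : 4 * A ^ 3 + 27 * B ^ 2 ≠ 0) : (baseCurve A B).IsElliptic :=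
  ⟨isUnit_iff_ne_zero.2 (by
    rw [show (baseCurve A B).Δ = -16 * (4 * A ^ 3 + 27 * B ^ 2) by
      simp only [baseCurve, WeierstrassCurve.Δ, WeierstrassCurve.b₂, WeierstrassCurve.b₄,
        WeierstrassCurve.b₆, WeierstrassCurve.b₈]
      ring]
    exact mul_ne_zero (by norm_num) hd)⟩

theorem twistedCurve_isElliptic (hd : 4 * A ^ 3 + 27 * B ^ 2 ≠ 0) {D : ℚ} (hD : D ≠ 0) :
    (twistedCurve A B D).IsElliptic :=
  ⟨isUnit_iff_ne_zero.2 (by
    rw [show (twistedCurve A B D).Δ = -16 * (4 * A ^ 3 + 27 * B ^ 2) * D ^ 6 by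
      simp only [twistedCurve, WeierstrassCurve.Δ, WeierstrassCurve.b₂, WeierstrassCurve.b₄,
        WeierstrassCurve.b₆, WeierstrassCurve.b₈]
      ring]
    exact mul_ne_zero (mul_ne_zero (by norm_num) hd) (pow_ne_zero _ hD))⟩

/-- The points of a twist as points of the curve over the algebraic closure. -/
theorem exists_untwist (hd : 4 * A ^ 3 + 27 * B ^ 2 ≠ 0) {D : ℚ} (hD : D ≠ 0) :
    ∃ ι : (twistedCurve A B D).toAffine.Point →+
        ((baseCurve A B).map (algebraMap ℚ (AlgebraicClosure ℚ))).toAffine.Point,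
      ∀ (x y : ℚ) (h : (twistedCurve A B D).toAffine.Nonsingular x y),
        HasAbs (ι (.some x y h)) (((x / D : ℚ)) : OnePoint ℚ) := by
  haveI := baseCurve_isElliptic hd
  haveI := twistedCurve_isElliptic hd hD
  set φ := algebraMap ℚ (AlgebraicClosure ℚ)
  obtain ⟨s, hs⟩ := IsAlgClosed.exists_pow_nat_eq (φ D) (n := 2) two_pos
  have hs0 : s ≠ 0 := fun e => hD (φ.injective (by rw [← hs, e, map_zero]; simp))
  let V : VariableChange (AlgebraicClosure ℚ) := ⟨Units.mk0 s hs0, 0, 0, 0⟩
  have hV : V • (twistedCurve A B D).map φ = (baseCurve A B).map φ := by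
    ext <;> simp only [twistedCurve, baseCurve, V, variableChange_a₁, variableChange_a₂,
      variableChange_a₃, variableChange_a₄, variableChange_a₆, WeierstrassCurve.map, map_zero,
      map_mul, map_pow, Units.val_inv_eq_inv_val, Units.val_mk0, ← hs]
    all_goals field_simp
    all_goals ring
  refine ⟨(FA.Frob.vcEquiv V hV).symm.toAddMonoidHom.comp (pointMap φ rfl), fun x y h => ?_⟩
  set R := (FA.Frob.vcEquiv V hV).symm (pointMap φ rfl (.some x y h)) with hR
  have hR0 : R ≠ 0 := fun e => Affine.Point.some_ne_zero _ (by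
    rw [hR, AddEquiv.map_eq_zero_iff] at e; exact e)
  obtain ⟨x', y', h', e⟩ := FA.EC.exists_some_of_ne_zero hR0
  have e' := (congrArg (FA.Frob.vcEquiv V hV) e).symm
  rw [hR, AddEquiv.apply_symm_apply, FA.Frob.vcEquiv_some, pointMap_some,
    Affine.Point.some.injEq] at e'
  have e'' := e'.1
  simp only [FA.Frob.vcX, V, Units.val_mk0, add_zero, hs] at e''
  show toPoint R.xRep = _
  rw [e, Affine.Point.xRep_some, OnePoint.map_some, map_div₀]
  simp only [φ, eq_ratCast] at e'' ⊢
  rw [← e'', mul_div_cancel_left₀ _ (Rat.cast_ne_zero.2 hD)]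
  simp [toPoint]

/-- The value of the twisting polynomial. -/
theorem eval_twistPoly (t : ℚ) :
    (twistPoly A B).eval t = (valPoly A B).eval t * (denX A).eval t := eval_mul

/-- The two points of a specialisation. -/
theorem nonsingular_pair (hd : 4 * A ^ 3 + 27 * B ^ 2 ≠ 0) {t : ℚ}
    (hD : (twistPoly A B).eval t ≠ 0) :
    (twistedCurve A B ((twistPoly A B).eval t)).toAffine.Nonsingular ((absP A B).eval t)
        ((valPoly A B).eval t ^ 2) ∧
      (twistedCurve A B ((twistPoly A B).eval t)).toAffine.Nonsingular ((absQ A B).eval t)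
        (t ^ 3 * (valPoly A B).eval t ^ 2) := by
  haveI := twistedCurve_isElliptic hd hD
  have e : (twistW A B).map (evalRingHom t) = twistedCurve A B ((twistPoly A B).eval t) := by
    ext <;> simp [twistW, twistedCurve, WeierstrassCurve.map]
  rw [← e] at this ⊢
  constructor
  · refine Affine.equation_iff_nonsingular.mp ?_
    convert (equation_P A B).map (evalRingHom t) using 1 <;> simp
  · refine Affine.equation_iff_nonsingular.mp ?_
    convert (equation_Q A B).map (evalRingHom t) using 1 <;> simp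

/-- The abscissa of the sum, with `s` in place of `t ³`. -/
theorem sum_identity {V M N t s b : ℚ} (hV : V ≠ 0) (hM : M ≠ 0) (hb : b ≠ 0) (hs : 1 + s ≠ 0)
    (ht : 1 - t ^ 2 ≠ 0) (hN0 : N ≠ 0) (hN : (1 - t ^ 2) * N = -b * (1 - s ^ 2)) :
    (((V ^ 2 - s * V ^ 2) / (V * N - t ^ 2 * (V * N))) ^ 2 - V * N - t ^ 2 * (V * N)) / (V * M) =
      (V - b ^ 2 * (1 + s) ^ 2 * N * (1 + t ^ 2)) / (M * b ^ 2 * (1 + s) ^ 2) := by
  have hden : V * N - t ^ 2 * (V * N) = V * (-b * (1 - s ^ 2)) := by rw [← hN]; ring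
  have hs' : 1 - s ≠ 0 := fun h => mul_ne_zero ht hN0 (by rw [hN]; linear_combination (-b * (1 + s)) * h)
  have h2 : (V ^ 2 - s * V ^ 2) / (V * N - t ^ 2 * (V * N)) = -V / (b * (1 + s)) := by
    rw [hden, show V * (-b * (1 - s ^ 2)) = (1 - s) * (V * (-(b * (1 + s)))) by ring,
      show V ^ 2 - s * V ^ 2 = (1 - s) * (V * V) by ring, mul_div_mul_left _ _ hs',
      mul_div_mul_left _ _ hV, div_neg, neg_div]
  rw [h2]
  field_simp
  ring

/-- Two given points are independent. -/
def IndependentAt (A B : ℚ) (t : ℚ) : Prop :=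
  ∃ P : Fin 2 → (twistedCurve A B ((twistPoly A B).eval t)).toAffine.Point, LinearIndependent ℤ P

/-- **Independence outside a finite set of rational parameters.** -/
theorem finite_dependent (hA : A ≠ 0) (hB : B ≠ 0) (hd : 4 * A ^ 3 + 27 * B ^ 2 ≠ 0) :
    {t : ℚ | ¬((twistPoly A B).eval t ≠ 0 ∧ IndependentAt A B t)}.Finite := by
  haveI := baseCurve_isElliptic hd
  obtain ⟨hsn, hsd, hdn, hdd⟩ := degree_forms A B
  obtain ⟨C₀, hC₀⟩ := exists_absHgt_bound (E := baseCurve A B)
  obtain ⟨C₁, hC₁⟩ := exists_height_le hsn hsd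
  obtain ⟨C₂, hC₂⟩ := exists_height_le hdn hdd
  obtain ⟨C₃, hC₃⟩ := exists_height_ge (p := numX B) (q := denX A) (d := 4)
    ⟨C (-B)⁻¹, -C A⁻¹, by
      rw [numX, denX, neg_mul, ← sub_eq_add_neg, ← mul_assoc, ← C_mul, inv_mul_cancel₀ (neg_ne_zero.2 hB),
        ← mul_assoc, ← mul_assoc, ← C_mul, inv_mul_cancel₀ hA, C_1]
      ring⟩ (by simp only [numX]; rw [natDegree_C_mul (neg_ne_zero.2 hB)]; exact le_of_eq (Eq.symm (by compute_degree!)))
  obtain ⟨C₄, hC₄⟩ := exists_height_ge (p := numX B) (q := C A * (X ^ 2 + 1)) (d := 4)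
    ⟨C (-B)⁻¹, -(C A⁻¹ * X ^ 2), by
      rw [numX, neg_mul, ← sub_eq_add_neg, ← mul_assoc, ← C_mul, inv_mul_cancel₀ (neg_ne_zero.2 hB),
        show C A⁻¹ * X ^ 2 * (C A * (X ^ 2 + 1)) = C A⁻¹ * C A * (X ^ 2 * (X ^ 2 + 1)) by ring,
        ← C_mul, inv_mul_cancel₀ hA, C_1]
      ring⟩ (by simp only [numX]; rw [natDegree_C_mul (neg_ne_zero.2 hB)]; exact le_of_eq (Eq.symm (by compute_degree!)))
  refine ((((finite_setOfPred_isRoot (twistPoly_ne_zero hA hB)).union
    (Set.toFinite {(-1 : ℚ), 1}))).union ((finite_pointHeight_le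
      ((max C₁ C₂ + 4 * max C₃ C₄ + 5 * C₀) / 4)).preimage
      (f := fun z : ℚ => (z : OnePoint ℚ)) OnePoint.coe_injective.injOn)).subset fun t ht => ?_
  by_contra hcon
  simp only [Set.mem_union, Set.mem_preimage, Set.mem_insert_iff, Set.mem_singleton_iff,
    Set.mem_ofPred_eq, IsRoot.def, not_or, not_le] at hcon
  obtain ⟨⟨hD, ht1, ht1'⟩, hbig⟩ := hcon
  obtain ⟨hP, hQ⟩ := nonsingular_pair hd hD
  refine ht ⟨hD, ![.some _ _ hP, .some _ _ hQ], ?_⟩
  haveI := twistedCurve_isElliptic hd hD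
  have hV0 : (valPoly A B).eval t ≠ 0 := left_ne_zero_of_mul (eval_twistPoly (A := A) (B := B) t ▸ hD)
  have hM0 : (denX A).eval t ≠ 0 := right_ne_zero_of_mul (eval_twistPoly (A := A) (B := B) t ▸ hD)
  have hN0 : (numX B).eval t ≠ 0 := by
    simp only [numX, eval_mul, eval_C, eval_add, eval_pow, eval_X, eval_one]
    exact mul_ne_zero (neg_ne_zero.2 hB) (by positivity)
  have h12 : t ^ 2 ≠ 1 := fun h => by
    rcases sq_eq_one_iff.1 h with e | e
    · exact ht1' e
    · exact ht1 e
  have h13 : 1 + t ^ 3 ≠ 0 := fun h => ht1 ((Odd.strictMono_pow (show Odd 3 by decide)).injective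
    (show t ^ 3 = (-1) ^ 3 by linarith))
  have h13' : 1 - t ^ 3 ≠ 0 := fun h => ht1' ((Odd.strictMono_pow (show Odd 3 by decide)).injective
    (show t ^ 3 = 1 ^ 3 by linarith))
  have hX : (absP A B).eval t ≠ (absQ A B).eval t := fun h => by
    rw [absQ, eval_mul, eval_pow, eval_X] at h
    have : (1 - t ^ 2) * (absP A B).eval t = 0 := by linarith
    exact (sub_ne_zero.2 h12.symm) ((mul_eq_zero.1 this).resolve_right
      (by rw [absP, eval_mul]; exact mul_ne_zero hV0 hN0))
  obtain ⟨ι, hι⟩ := exists_untwist hd hD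
  have hι' : ∀ (x y : ℚ) (h : (twistedCurve A B ((twistPoly A B).eval t)).toAffine.Nonsingular x y)
      (c : ℚ), c = x / (twistPoly A B).eval t → HasAbs (ι (.some x y h)) (c : OnePoint ℚ) :=
    fun x y h c e => e ▸ hι x y h
  set P : (twistedCurve A B ((twistPoly A B).eval t)).toAffine.Point := .some _ _ hP
  set Q : (twistedCurve A B ((twistPoly A B).eval t)).toAffine.Point := .some _ _ hQ
  have xP : HasAbs (ι P) (((numX B).eval t / (denX A).eval t : ℚ) : OnePoint ℚ) := by
    refine hι' _ _ hP _ ?_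
    rw [absP, eval_twistPoly, eval_mul, mul_div_mul_left _ _ hV0]
  have xQ : HasAbs (ι Q) (((numX B).eval t / (C A * (X ^ 2 + 1)).eval t : ℚ) : OnePoint ℚ) := by
    refine hι' _ _ hQ _ ?_
    rw [eval_twistPoly, absQ, absP, denX]
    simp only [eval_mul, eval_pow, eval_X, eval_C, eval_add, eval_one]
    have ht0 : t ≠ 0 := fun h => hM0 (by simp [denX, h])
    field_simp
  have hN : (1 - t ^ 2) * (numX B).eval t = -B * (1 - (t ^ 3) ^ 2) := by
    simp only [numX, eval_mul, eval_C, eval_add, eval_pow, eval_X, eval_one]; ring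
  have hN' : (1 - t ^ 2) * (numX B).eval t = -B * (1 - (-t ^ 3) ^ 2) := by rw [hN]; ring
  have ht2 : 1 - t ^ 2 ≠ 0 := sub_ne_zero.2 h12.symm
  have eP : (absP A B).eval t = (valPoly A B).eval t * (numX B).eval t := eval_mul
  have eQ : (absQ A B).eval t = t ^ 2 * ((valPoly A B).eval t * (numX B).eval t) := by
    rw [absQ, eval_mul, eP, eval_pow, eval_X]
  have hS : HasAbs (ι P + ι Q) (((sumNum A B).eval t / (sumDen A B).eval t : ℚ) : OnePoint ℚ) := by
    rw [← map_add, Affine.Point.add_of_X_ne hX]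
    refine hι' _ _ _ _ ?_
    rw [Affine.slope_of_X_ne hX, Affine.addX, eval_twistPoly, eP, eQ]
    simp only [twistedCurve, sumNum, sumDen, eval_mul, eval_sub, eval_add, eval_pow, eval_X,
      eval_C, eval_one, zero_mul, add_zero, sub_zero]
    exact (sum_identity (s := t ^ 3) hV0 hM0 hB h13 ht2 hN0 hN).symm
  have hT : HasAbs (ι P - ι Q) (((diffNum A B).eval t / (diffDen A B).eval t : ℚ) : OnePoint ℚ) := by
    rw [sub_eq_add_neg, ← map_neg, ← map_add, Affine.Point.neg_some, Affine.Point.add_of_X_ne hX]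
    refine hι' _ _ _ _ ?_
    rw [Affine.slope_of_X_ne hX, Affine.addX, eval_twistPoly, eP, eQ]
    simp only [Affine.negY, twistedCurve, diffNum, diffDen, eval_mul, eval_sub, eval_add,
      eval_pow, eval_X, eval_C, eval_one, zero_mul, add_zero, sub_zero, ← neg_mul]
    simpa only [sub_eq_add_neg] using
      (sum_identity (s := -t ^ 3) hV0 hM0 hB (by simpa only [← sub_eq_add_neg] using h13') ht2 hN0 hN').symm
  refine LinearIndependent.pair_iff.2 fun m n h => ?_
  by_contra hmn
  have h' : m • ι P + n • ι Q = 0 := by rw [← map_zsmul, ← map_zsmul, ← map_add, h, map_zero]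
  have key := dependent_bound xP xQ hS hT (not_and_or.1 hmn) h'
  have l₁ := hC₁ t (by
    simp only [sumDen, eval_mul, eval_C, eval_pow, eval_add, eval_one, eval_X]
    exact mul_ne_zero (mul_ne_zero hM0 (pow_ne_zero _ hB)) (pow_ne_zero _ h13))
  have l₂ := hC₂ t (by
    simp only [diffDen, eval_mul, eval_C, eval_pow, eval_sub, eval_one, eval_X]
    exact mul_ne_zero (mul_ne_zero hM0 (pow_ne_zero _ hB)) (pow_ne_zero _ h13'))
  have l₃ := hC₃ t hM0
  have l₄ := hC₄ t (by
    simp only [eval_mul, eval_C, eval_add, eval_pow, eval_X, eval_one]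
    exact mul_ne_zero hA (by positivity))
  norm_num at l₁ l₂ l₃ l₄
  have b₁ := abs_le.1 (hC₀ (((sumNum A B).eval t / (sumDen A B).eval t : ℚ) : OnePoint ℚ))
  have b₂ := abs_le.1 (hC₀ (((diffNum A B).eval t / (diffDen A B).eval t : ℚ) : OnePoint ℚ))
  have b₃ := abs_le.1 (hC₀ (((numX B).eval t / (denX A).eval t : ℚ) : OnePoint ℚ))
  have b₄ := abs_le.1 (hC₀ (((numX B).eval t / (C A * (X ^ 2 + 1)).eval t : ℚ) : OnePoint ℚ))
  rw [eval_mul, eval_C, eval_add, eval_pow, eval_X, eval_one] at b₄ key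
  rcases max_choice (absHgt (baseCurve A B) (((sumNum A B).eval t / (sumDen A B).eval t : ℚ) : OnePoint ℚ))
      (absHgt (baseCurve A B) (((diffNum A B).eval t / (diffDen A B).eval t : ℚ) : OnePoint ℚ))
    with e | e <;> rw [e] at key <;>
    rcases min_choice (absHgt (baseCurve A B) (((numX B).eval t / (denX A).eval t : ℚ) : OnePoint ℚ))
      (absHgt (baseCurve A B) (((numX B).eval t / (A * (t ^ 2 + 1)) : ℚ) : OnePoint ℚ))
      with o | o <;>
    rw [o] at key <;>
    linarith [le_max_left C₁ C₂, le_max_right C₁ C₂, le_max_left C₃ C₄, le_max_right C₃ C₄,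
      b₁.2, b₂.2, b₃.1, b₄.1]

end FA.TwistCount
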