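import Fermat.Agent.ArithmeticDynamics.Height
import Fermat.Agent.EC.TorsionCard
import Mathlib.FieldTheory.IsAlgClosed.AlgebraicClosure

/-!
# The canonical height on abscissae

For an elliptic curve over `K` the canonical height of the doubling map on the abscissa is
multiplied by `n²` under multiplication by `n`, whatever the field of the ordinate. So two points
with abscissae in `K` are independent if their sum and difference have abscissae of small height.
-/

set_option autoImplicit false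
set_option linter.style.haveILetI false
set_option linter.unusedSectionVars false

noncomputable section

open WeierstrassCurve Polynomial OnePoint Height Filter Topology
open FA.ArithmeticDynamics
open scoped Classical

namespace FA.TwistCount

variable {K : Type*} [Field K] {E : WeierstrassCurve K}

local notation "Ω" => AlgebraicClosure K

/-- The point `P` over the algebraic closure has the abscissa `x`. -/
def HasAbs (P : (E.map (algebraMap K Ω)).toAffine.Point) (x : OnePoint K) : Prop :=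
  toPoint P.xRep = x.map (algebraMap K Ω)

theorem HasAbs.unique {P : (E.map (algebraMap K Ω)).toAffine.Point} {x y : OnePoint K}
    (hx : HasAbs P x) (hy : HasAbs P y) : x = y := by
  have h : x.map (algebraMap K Ω) = y.map (algebraMap K Ω) := hx.symm.trans hy
  induction x using OnePoint.rec <;> induction y using OnePoint.rec <;>
    simp_all [(algebraMap K Ω).injective.eq_iff]

theorem HasAbs.neg {P : (E.map (algebraMap K Ω)).toAffine.Point} {x : OnePoint K}
    (hx : HasAbs P x) : HasAbs (-P) x := by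
  simpa [HasAbs, Affine.Point.xRep_neg] using hx

theorem hasAbs_zero : HasAbs (0 : (E.map (algebraMap K Ω)).toAffine.Point) ∞ := by
  simp [HasAbs, toPoint]

section Heights

variable [CharZero K] [AdmissibleAbsValues K] [E.IsElliptic]

omit [CharZero K] [AdmissibleAbsValues K] [E.IsElliptic] in
theorem degree_mul (n : ℕ) :
    FA.ArithmeticDynamics.degree (E.Φ n) (E.ΨSq n) = n ^ 2 := by
  rw [FA.ArithmeticDynamics.degree, natDegree_Φ, Int.natAbs_natCast, max_eq_left]
  exact (natDegree_ΨSq_le _ _).trans (by simp)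

omit [CharZero K] [AdmissibleAbsValues K] in
theorem isCoprime_mul (n : ℤ) : IsCoprime (E.Φ n) (E.ΨSq n) := by
  refine (isCoprime_iff_aeval_ne_zero_of_isAlgClosed K Ω _ _).2 fun r => ?_
  by_contra hcon
  push Not at hcon
  refine FA.EC.numDen_ne_zero (E.map (algebraMap K Ω)) n r (funext fun i => ?_)
  fin_cases i
  · simpa [FA.EC.numDen, map_Φ, eval_map, ← aeval_def] using hcon.1
  · simpa [FA.EC.numDen, map_ΨSq, eval_map, ← aeval_def] using hcon.2

omit [AdmissibleAbsValues K] in
theorem HasAbs.nsmul {P : (E.map (algebraMap K Ω)).toAffine.Point} {x : OnePoint K} {n : ℕ}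
    (hn : n ≠ 0) (hx : HasAbs P x) : HasAbs (n • P) (ratApply (E.Φ n) (E.ΨSq n) x) := by
  rw [HasAbs, ratApply_map, ← map_Φ, ← map_ΨSq, ← hx]
  rcases P with _ | ⟨a, b, h⟩
  · have hc : ((E.map (algebraMap K Ω)).ΨSq n).coeff (n ^ 2) = 0 := by
      refine coeff_eq_zero_of_natDegree_lt ((natDegree_ΨSq_le _ _).trans_lt ?_)
      simp only [Int.natAbs_natCast]
      have : 0 < n ^ 2 := by positivity
      omega
    show toPoint (n • (0 : (E.map (algebraMap K Ω)).toAffine.Point)).xRep =
      ratApply _ _ (toPoint (0 : (E.map (algebraMap K Ω)).toAffine.Point).xRep)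
    rw [nsmul_zero, Affine.Point.xRep_zero, show toPoint ![(1 : Ω), 0] = ∞ by simp [toPoint],
      ratApply_infty, degree_mul, if_pos hc]
  · obtain ⟨u, hu, hk⟩ := FA.EC.exists_smul_xRep_nsmul h n
    rw [← toPoint_smul hu, ← hk, Affine.Point.xRep_some,
      show toPoint ![a, (1 : Ω)] = ↑a by simp [toPoint], ratApply, rep_coe,
      form_coe _ (natDegree_left_le _ _), form_coe _ (natDegree_right_le _ _)]
    rfl

variable (E) in
/-- The canonical height of an abscissa. -/
def absHgt (x : OnePoint K) : ℝ := canonicalHeight (E.Φ 2) (E.ΨSq 2) x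

omit [CharZero K] [AdmissibleAbsValues K] [E.IsElliptic] in
theorem degree_two : FA.ArithmeticDynamics.degree (E.Φ 2) (E.ΨSq 2) = 4 := by
  simpa using degree_mul (E := E) 2

theorem exists_absHgt_bound : ∃ C, ∀ x, |absHgt E x - pointHeight x| ≤ C := by
  obtain ⟨C, hC⟩ := exists_tendsto_canonicalHeight (isCoprime_mul (E := E) 2)
    (by rw [degree_two]; norm_num)
  exact ⟨C, fun x => (hC x).2⟩

theorem tendsto_absHgt (x : OnePoint K) :
    Tendsto (fun k : ℕ => pointHeight ((ratApply (E.Φ 2) (E.ΨSq 2))^[k] x) / (4 : ℝ) ^ k) atTop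
      (𝓝 (absHgt E x)) := by
  obtain ⟨C, hC⟩ := exists_tendsto_canonicalHeight (isCoprime_mul (E := E) 2)
    (by rw [degree_two]; norm_num)
  have h := (hC x).1
  rw [degree_two, Nat.cast_ofNat] at h
  exact h

theorem absHgt_nonneg (x : OnePoint K) : 0 ≤ absHgt E x :=
  ge_of_tendsto' (tendsto_absHgt x) fun _ => div_nonneg (logHeight_nonneg _) (by positivity)

theorem absHgt_infty : absHgt E ∞ = 0 := by
  refine tendsto_nhds_unique (tendsto_absHgt ∞) ?_
  have hfix : ∀ k : ℕ, (ratApply (E.Φ 2) (E.ΨSq 2))^[k] ∞ = ∞ := by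
    intro k
    refine Function.iterate_fixed ?_ k
    exact ((hasAbs_zero (E := E)).nsmul (n := 2) two_ne_zero).unique
      (by rw [nsmul_zero]; exact hasAbs_zero)
  have h4 : Tendsto (fun k : ℕ => (4 : ℝ) ^ k) atTop atTop :=
    tendsto_pow_atTop_atTop_of_one_lt (by norm_num)
  simp only [hfix]
  exact tendsto_const_nhds.div_atTop h4

omit [AdmissibleAbsValues K] in
theorem hasAbs_iterate {P : (E.map (algebraMap K Ω)).toAffine.Point} {x : OnePoint K}
    (hx : HasAbs P x) (k : ℕ) :
    HasAbs ((2 ^ k) • P) ((ratApply (E.Φ 2) (E.ΨSq 2))^[k] x) := by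
  induction k with
  | zero => simpa using hx
  | succ k ih =>
    rw [Function.iterate_succ_apply', pow_succ', mul_nsmul']
    exact ih.nsmul two_ne_zero

/-- **The height is quadratic.** -/
theorem absHgt_nsmul {P : (E.map (algebraMap K Ω)).toAffine.Point} {x z : OnePoint K} {n : ℕ}
    (hn : n ≠ 0) (hx : HasAbs P x) (hz : HasAbs (n • P) z) :
    absHgt E z = (n : ℝ) ^ 2 * absHgt E x := by
  obtain ⟨C, hC⟩ := exists_height_bound (isCoprime_mul (E := E) n)
  rw [degree_mul] at hC
  set f := ratApply (E.Φ 2) (E.ΨSq 2)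
  have he : ∀ k, f^[k] z = ratApply (E.Φ n) (E.ΨSq n) (f^[k] x) := fun k =>
    (hasAbs_iterate hz k).unique (by
      rw [← mul_nsmul', mul_comm, mul_nsmul']
      exact (hasAbs_iterate hx k).nsmul hn)
  refine tendsto_nhds_unique (tendsto_absHgt z) ?_
  have h4 : Tendsto (fun k : ℕ => (4 : ℝ) ^ k) atTop atTop :=
    tendsto_pow_atTop_atTop_of_one_lt (by norm_num)
  have h0 := squeeze_zero_norm (f := fun k : ℕ =>
      (pointHeight (f^[k] z) - (n : ℝ) ^ 2 * pointHeight (f^[k] x)) / 4 ^ k)
    (fun k => by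
      rw [Real.norm_eq_abs, abs_div, abs_of_pos (show (0 : ℝ) < 4 ^ k by positivity), he]
      exact div_le_div_of_nonneg_right (by simpa using hC (f^[k] x)) (by positivity))
    ((tendsto_const_nhds (x := C)).div_atTop h4)
  have h := h0.add ((tendsto_absHgt (E := E) x).const_mul ((n : ℝ) ^ 2))
  rw [zero_add] at h
  exact h.congr fun k => by ring

theorem absHgt_zsmul {P : (E.map (algebraMap K Ω)).toAffine.Point} {x z : OnePoint K} {n : ℤ}
    (hx : HasAbs P x) (hz : HasAbs (n • P) z) : absHgt E z = (n : ℝ) ^ 2 * absHgt E x := by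
  rcases eq_or_ne n 0 with rfl | hn
  · rw [zero_zsmul] at hz
    obtain rfl := hz.unique (hasAbs_zero (E := E))
    rw [absHgt_infty]
    simp
  · have hn' : n.natAbs ≠ 0 := Int.natAbs_ne_zero.2 hn
    have hz' : HasAbs (n.natAbs • P) z := by
      rcases n.natAbs_eq with e | e <;> rw [e] at hz
      · rwa [natCast_zsmul] at hz
      · rw [neg_zsmul, natCast_zsmul] at hz
        simpa using hz.neg
    rw [absHgt_nsmul hn' hx hz', Nat.cast_natAbs, Int.cast_abs, sq_abs]

omit [AdmissibleAbsValues K] in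
theorem HasAbs.exists_zsmul {P : (E.map (algebraMap K Ω)).toAffine.Point} {x : OnePoint K}
    (hx : HasAbs P x) (n : ℤ) : ∃ z, HasAbs (n • P) z := by
  rcases eq_or_ne n 0 with rfl | hn
  · exact ⟨∞, by rw [zero_zsmul]; exact hasAbs_zero⟩
  · rcases n.natAbs_eq with e | e <;> rw [e]
    · exact ⟨_, by rw [natCast_zsmul]; exact hx.nsmul (Int.natAbs_ne_zero.2 hn)⟩
    · exact ⟨_, by rw [neg_zsmul, natCast_zsmul]; exact (hx.nsmul (Int.natAbs_ne_zero.2 hn)).neg⟩

/-- **Dependent points**: the sum or the difference has four times the height. -/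
theorem dependent_bound {P Q : (E.map (algebraMap K Ω)).toAffine.Point} {x y r r' : OnePoint K}
    (hP : HasAbs P x) (hQ : HasAbs Q y) (hr : HasAbs (P + Q) r) (hr' : HasAbs (P - Q) r')
    {m n : ℤ} (hmn : m ≠ 0 ∨ n ≠ 0) (h : m • P + n • Q = 0) :
    4 * min (absHgt E x) (absHgt E y) ≤ max (absHgt E r) (absHgt E r') := by
  set μ := min (absHgt E x) (absHgt E y)
  rcases le_or_gt μ 0 with hμ | hμ
  · linarith [le_max_left (absHgt E r) (absHgt E r'), absHgt_nonneg (E := E) r]
  have hx0 : μ ≤ absHgt E x := min_le_left _ _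
  have hy0 : μ ≤ absHgt E y := min_le_right _ _
  have e : m • P = (-n) • Q := by rw [neg_zsmul]; exact eq_neg_of_add_eq_zero_left h
  obtain ⟨z, hz⟩ := hP.exists_zsmul m
  have e1 := absHgt_zsmul hP hz
  rw [e] at hz
  have e2 := absHgt_zsmul hQ hz
  rw [e1, Int.cast_neg, neg_sq] at e2
  have hm : (m : ℝ) ≠ 0 := by
    intro hm
    have : n = 0 := by
      have h0 : (n : ℝ) ^ 2 * absHgt E y = 0 := by rw [← e2, hm]; ring
      exact_mod_cast (pow_eq_zero_iff two_ne_zero).1
        ((mul_eq_zero.1 h0).resolve_right (ne_of_gt (hμ.trans_le hy0)))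
    exact hmn.elim (fun hm' => hm' (Int.cast_eq_zero.1 hm)) fun hn' => hn' this
  have hsum : m • (P + Q) = (m - n) • Q := by rw [zsmul_add, e, sub_zsmul, neg_zsmul]; abel
  have hdiff : m • (P - Q) = (-(m + n)) • Q := by rw [zsmul_sub, e, neg_zsmul, neg_zsmul, add_zsmul]; abel
  obtain ⟨z₁, hz₁⟩ := hQ.exists_zsmul (m - n)
  obtain ⟨z₂, hz₂⟩ := hQ.exists_zsmul (-(m + n))
  have s1 := absHgt_zsmul hQ hz₁
  have s2 := absHgt_zsmul hQ hz₂
  rw [← hsum] at hz₁
  rw [← hdiff] at hz₂
  rw [absHgt_zsmul hr hz₁, Int.cast_sub] at s1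
  rw [absHgt_zsmul hr' hz₂, Int.cast_neg, neg_sq, Int.cast_add] at s2
  have hm2 : 0 < (m : ℝ) ^ 2 := by positivity
  have hny : |(m : ℝ)| * μ ≤ |(n : ℝ)| * absHgt E y := by
    refine (sq_le_sq₀ (by positivity) (mul_nonneg (abs_nonneg _) (absHgt_nonneg y))).1 ?_
    rw [mul_pow, mul_pow, sq_abs, sq_abs]
    calc (m : ℝ) ^ 2 * μ ^ 2 ≤ (m : ℝ) ^ 2 * (absHgt E x * absHgt E y) :=
          mul_le_mul_of_nonneg_left (by rw [sq]; exact mul_le_mul hx0 hy0 hμ.le (absHgt_nonneg x))
            hm2.le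
      _ = (n : ℝ) ^ 2 * absHgt E y ^ 2 := by rw [← mul_assoc, e2]; ring
  have key : (|(m : ℝ)| + |(n : ℝ)|) ^ 2 * absHgt E y ≤
      (m : ℝ) ^ 2 * max (absHgt E r) (absHgt E r') := by
    rcases abs_choice (m : ℝ) with a | a <;> rcases abs_choice (n : ℝ) with b | b <;> rw [a, b]
    · exact s2.symm.le.trans (mul_le_mul_of_nonneg_left (le_max_right _ _) hm2.le) |>.trans' (by nlinarith)
    · exact s1.symm.le.trans (mul_le_mul_of_nonneg_left (le_max_left _ _) hm2.le) |>.trans' (by nlinarith)
    · exact s1.symm.le.trans (mul_le_mul_of_nonneg_left (le_max_left _ _) hm2.le) |>.trans' (by nlinarith)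
    · exact s2.symm.le.trans (mul_le_mul_of_nonneg_left (le_max_right _ _) hm2.le) |>.trans' (by nlinarith)
  refine le_of_mul_le_mul_left (le_trans ?_ key) hm2
  nlinarith [sq_abs (m : ℝ), sq_abs (n : ℝ), mul_le_mul_of_nonneg_left hny (abs_nonneg (m : ℝ)),
    mul_le_mul_of_nonneg_left hx0 hm2.le, mul_le_mul_of_nonneg_left hy0 hm2.le]

end Heights

end FA.TwistCount
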