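import Fermat.Agent.TwistCount.Specialise
import Fermat.Agent.Root.SummaryPrimeNumberTheorem
import Mathlib.NumberTheory.SumTwoSquares

/-!
# Counting twists with two independent points

At `w = u / v` with `u ² + v ² = p` prime the twisting value is, up to squares, `a V (u, v) p` with
`V` a form of degree `12`; so `p` divides its squarefree part `d` and `|d| ≤ C p ⁷`. As `d` has
boundedly many such prime factors, the primes `≡ 1 (mod 4)` give `≫ X ^ (1/7) / log X` values `d`.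
-/

set_option autoImplicit false
set_option linter.style.haveILetI false

noncomputable section

open WeierstrassCurve Polynomial Filter Topology
open FA.TwistRankTwo
open scoped Classical

attribute [local instance 2000] FA.NeronSpecialisation.ratDecEq

namespace FA.TwistCount

/-- The twist by `d` has two independent points. -/
def RankTwo (A B : ℚ) (d : ℚ) : Prop :=
  ∃ P : Fin 2 → (twistedCurve A B d).toAffine.Point, LinearIndependent ℤ P

/-- Scaling the coordinates does not change that. -/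
theorem RankTwo.transfer {A B D A' B' D' r : ℚ} (hd : 4 * A ^ 3 + 27 * B ^ 2 ≠ 0) (hD : D ≠ 0)
    (hr : r ≠ 0) (h4 : A * D ^ 2 = r ^ 4 * (A' * D' ^ 2)) (h6 : B * D ^ 3 = r ^ 6 * (B' * D' ^ 3))
    (h : RankTwo A B D) : RankTwo A' B' D' := by
  obtain ⟨P, hP⟩ := h
  haveI := twistedCurve_isElliptic hd hD
  have hV : (⟨Units.mk0 r hr, 0, 0, 0⟩ : VariableChange ℚ) • twistedCurve A B D =
      twistedCurve A' B' D' := by
    ext <;> simp only [twistedCurve, variableChange_a₁, variableChange_a₂, variableChange_a₃,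
      variableChange_a₄, variableChange_a₆, Units.val_inv_eq_inv_val, Units.val_mk0, h4, h6]
    all_goals field_simp
    all_goals ring
  haveI : (twistedCurve A' B' D').IsElliptic := hV ▸ inferInstance
  exact ⟨fun i => (FA.Frob.vcEquiv _ hV).symm (P i),
    hP.map' (FA.Frob.vcEquiv _ hV).symm.toAddMonoidHom.toIntLinearMap
      (LinearMap.ker_eq_bot.2 (FA.Frob.vcEquiv _ hV).symm.injective)⟩

/-- A squarefree part containing every prime that divides exactly once. -/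
theorem exists_squarefree_part {n : ℤ} (hn : n ≠ 0) :
    ∃ d q : ℤ, Squarefree d ∧ q ≠ 0 ∧ n = q ^ 2 * d ∧ |d| ≤ |n| ∧
      ∀ p : ℕ, p.Prime → (p : ℤ) ∣ n → ¬(p : ℤ) ^ 2 ∣ n → (p : ℤ) ∣ d := by
  obtain ⟨a, b, -, hb, hab, ha⟩ := Nat.sq_mul_squarefree_of_pos (Int.natAbs_pos.mpr hn)
  refine ⟨Int.sign n * a, b, ?_, Int.natCast_ne_zero.2 hb.ne', ?_, ?_, fun p hp h1 h2 => ?_⟩
  · rw [← Int.squarefree_natAbs, Int.natAbs_mul, Int.natAbs_sign_of_ne_zero hn, one_mul,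
      Int.natAbs_natCast]
    exact ha
  · conv_lhs => rw [← Int.sign_mul_natAbs n, ← hab]
    push_cast
    ring
  · rw [abs_mul, abs_of_nonneg (Int.natCast_nonneg a), ← Int.natCast_natAbs n, ← hab]
    rcases hn.lt_or_gt with h | h <;>
      simp [Int.sign_eq_neg_one_of_neg, Int.sign_eq_one_of_pos, h] <;>
      exact_mod_cast Nat.le_mul_of_pos_left a (pow_pos hb 2)
  · refine (dvd_mul_of_dvd_right ?_ _)
    rw [Int.natCast_dvd_natCast]
    have h1' : p ∣ b ^ 2 * a := hab ▸ Int.natCast_dvd.1 h1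
    rcases (Nat.Prime.dvd_mul hp).1 h1' with h | h
    · refine absurd ?_ h2
      rw [show (p : ℤ) ^ 2 = ((p ^ 2 : ℕ) : ℤ) by push_cast; rfl, Int.natCast_dvd, ← hab]
      exact (pow_dvd_pow_of_dvd (hp.dvd_of_dvd_pow h) 2).mul_right a
    · exact h

variable (a b : ℤ)

/-- The numerator of the abscissa as a form. -/
def formN (u v : ℤ) : ℤ := -b * (u ^ 4 + u ^ 2 * v ^ 2 + v ^ 4)

/-- Its denominator. -/
def formM (u v : ℤ) : ℤ := a * u ^ 2 * (u ^ 2 + v ^ 2)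

/-- The cofactor of `u ² + v ²` in the twisting value, up to squares. -/
def formK (u v : ℤ) : ℤ :=
  a * (formN b u v ^ 3 + a * formN b u v * formM a u v ^ 2 + b * formM a u v ^ 3)

/-- The bound for the cofactor. -/
def sizeK : ℕ := a.natAbs * (27 * b.natAbs ^ 3 + 4 * a.natAbs ^ 3 * b.natAbs)

variable {a b}

theorem eval_twistPoly_div {u v : ℤ} (hv : v ≠ 0) :
    (twistPoly (a : ℚ) b).eval ((u : ℚ) / v) =
      ((u : ℚ) / v ^ 8) ^ 2 * ((formK a b u v * (u ^ 2 + v ^ 2) : ℤ) : ℚ) := by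
  have hv' : (v : ℚ) ≠ 0 := Int.cast_ne_zero.2 hv
  simp only [eval_twistPoly, valPoly, numX, denX, formK, formN, formM, eval_add, eval_mul,
    eval_pow, eval_C, eval_X, eval_one]
  push_cast
  field_simp

theorem formK_le {u v p : ℤ} (hp : u ^ 2 + v ^ 2 = p) :
    |formK a b u v| ≤ sizeK a b * p ^ 6 := by
  have hu : u ^ 2 ≤ p := by linarith [sq_nonneg v]
  have hv : v ^ 2 ≤ p := by linarith [sq_nonneg u]
  have hu2 : 0 ≤ u ^ 2 := sq_nonneg u
  have hv2 : 0 ≤ v ^ 2 := sq_nonneg v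
  have hp0 : 0 ≤ p := by linarith
  have hN : |formN b u v| ≤ 3 * |b| * p ^ 2 := by
    rw [formN, abs_mul, abs_neg, abs_of_nonneg (show 0 ≤ u ^ 4 + u ^ 2 * v ^ 2 + v ^ 4 by positivity),
      mul_comm (3 : ℤ), mul_assoc]
    exact mul_le_mul_of_nonneg_left (by nlinarith) (abs_nonneg b)
  have hM : |formM a u v| ≤ |a| * p ^ 2 := by
    rw [formM, mul_assoc, abs_mul, hp, abs_of_nonneg (show 0 ≤ u ^ 2 * p by positivity)]
    exact mul_le_mul_of_nonneg_left (by nlinarith) (abs_nonneg a)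
  rw [formK, abs_mul, show ((sizeK a b : ℕ) : ℤ) * p ^ 6 =
      |a| * ((3 * |b| * p ^ 2) ^ 3 + |a| * (3 * |b| * p ^ 2) * (|a| * p ^ 2) ^ 2 +
        |b| * (|a| * p ^ 2) ^ 3) by simp only [sizeK]; push_cast; ring]
  refine mul_le_mul_of_nonneg_left ((abs_add_le _ _).trans (add_le_add ((abs_add_le _ _).trans
    (add_le_add ?_ ?_)) ?_)) (abs_nonneg a)
  · rw [abs_pow]; exact pow_le_pow_left₀ (abs_nonneg _) hN 3
  · rw [abs_mul, abs_mul, abs_pow]
    exact mul_le_mul (mul_le_mul_of_nonneg_left hN (abs_nonneg a))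
      (pow_le_pow_left₀ (abs_nonneg _) hM 2) (by positivity) (by positivity)
  · rw [abs_mul, abs_pow]
    exact mul_le_mul_of_nonneg_left (pow_le_pow_left₀ (abs_nonneg _) hM 3) (abs_nonneg b)

theorem not_dvd_formK {p : ℕ} (hp : p.Prime) (ha : ¬(p : ℤ) ∣ a) (hb : ¬(p : ℤ) ∣ b) {u v : ℤ}
    (hv : ¬(p : ℤ) ∣ v) (h : u ^ 2 + v ^ 2 = p) : ¬(p : ℤ) ∣ formK a b u v := by
  have hp' : Prime (p : ℤ) := Nat.prime_iff_prime_int.1 hp
  intro hK
  rcases hp'.dvd_or_dvd hK with h' | h'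
  · exact ha h'
  have hN : (p : ℤ) ∣ formN b u v := by
    refine hp'.dvd_of_dvd_pow (n := 3) ?_
    have hM : (p : ℤ) ∣ formM a u v := ⟨a * u ^ 2, by rw [formM, h]; ring⟩
    have : (p : ℤ) ∣ a * formN b u v * formM a u v ^ 2 + b * formM a u v ^ 3 :=
      dvd_add (dvd_mul_of_dvd_right (dvd_pow hM two_ne_zero) _)
        (dvd_mul_of_dvd_right (dvd_pow hM three_ne_zero) _)
    rw [add_assoc] at h'
    exact (dvd_add_left this).1 h'
  have e : formN b u v = -b * v ^ 4 + (p : ℤ) * (-b * u ^ 2) := by rw [formN, ← h]; ring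
  rw [e] at hN
  rcases hp'.dvd_or_dvd ((dvd_add_left (dvd_mul_right _ _)).1 hN) with h' | h'
  · exact hb (dvd_neg.1 h')
  · exact hv (hp'.dvd_of_dvd_pow h')

/-- **A twist for almost every prime `≡ 1 (mod 4)`.** -/
theorem finite_exceptional_primes (ha : a ≠ 0) (hb : b ≠ 0)
    (hd : 4 * (a : ℚ) ^ 3 + 27 * (b : ℚ) ^ 2 ≠ 0) :
    {p : ℕ | p.Prime ∧ (p : ZMod 4) = 1 ∧ ¬∃ d : ℤ, Squarefree d ∧ (p : ℤ) ∣ d ∧
      |d| ≤ sizeK a b * (p : ℤ) ^ 7 ∧ RankTwo a b d}.Finite := by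
  refine ((Set.finite_le_nat (a.natAbs + b.natAbs)).union
    ((finite_dependent (Int.cast_ne_zero.2 ha) (Int.cast_ne_zero.2 hb) hd).image
      fun t : ℚ => t.num.natAbs ^ 2 + t.den ^ 2)).subset ?_
  rintro p ⟨hp, hp4, hno⟩
  by_contra hcon
  simp only [Set.mem_union, Set.mem_ofPred_eq, not_or, not_le, Set.mem_image, not_exists,
    not_and] at hcon
  obtain ⟨hbig, himg⟩ := hcon
  haveI := Fact.mk hp
  obtain ⟨u, v, huv⟩ := Nat.Prime.sq_add_sq (p := p) (by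
    intro h
    have h' := congrArg ZMod.val hp4
    rw [ZMod.val_natCast, show (1 : ZMod 4).val = 1 from rfl] at h'
    omega)
  have hne : ∀ w : ℕ, p ≠ w ^ 2 := fun w h => Nat.Prime.not_prime_pow (le_refl 2) (h ▸ hp)
  have hu : u ≠ 0 := fun h => hne v (by rw [← huv, h]; ring)
  have hv : v ≠ 0 := fun h => hne u (by rw [← huv, h]; ring)
  have hcop : Nat.Coprime u v := by
    refine Nat.coprime_of_dvd fun k hk hku hkv => ?_
    have h2 : k ^ 2 ∣ p := huv ▸ dvd_add (pow_dvd_pow_of_dvd hku 2) (pow_dvd_pow_of_dvd hkv 2)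
    rcases (Nat.dvd_prime hp).1 h2 with h | h
    · exact hk.one_lt.ne' (Nat.pow_eq_one.1 h |>.resolve_right two_ne_zero)
    · exact hne k h.symm
  obtain ⟨hD, hI⟩ : (twistPoly (a : ℚ) b).eval (((u : ℤ) : ℚ) / ((v : ℤ) : ℚ)) ≠ 0 ∧
      IndependentAt (a : ℚ) b (((u : ℤ) : ℚ) / ((v : ℤ) : ℚ)) := by
    by_contra h
    refine himg _ (not_and.1 h) ?_
    rw [Rat.num_div_eq_of_coprime (by exact_mod_cast Nat.pos_of_ne_zero hv) (by simpa using hcop)]
    have := Rat.den_div_eq_of_coprime (a := (u : ℤ)) (b := (v : ℤ))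
      (by exact_mod_cast Nat.pos_of_ne_zero hv) (by simpa using hcop)
    rw [Int.natAbs_natCast, show ((((u : ℤ) : ℚ) / ((v : ℤ) : ℚ)).den) = v by exact_mod_cast this]
    exact huv
  have huv' : (u : ℤ) ^ 2 + (v : ℤ) ^ 2 = p := by exact_mod_cast huv
  rw [eval_twistPoly_div (Int.natCast_ne_zero.2 hv), huv'] at hD
  have hKp : formK a b u v * (p : ℤ) ≠ 0 := fun h => hD (by rw [h]; simp)
  obtain ⟨d, q, hsq, hq, hdq, hle, hdvd⟩ := exists_squarefree_part hKp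
  have hlt : ∀ {c : ℤ}, c ≠ 0 → c.natAbs < p → ¬(p : ℤ) ∣ c := fun hc h hdvd =>
    absurd (Nat.le_of_dvd (Int.natAbs_pos.2 hc) (Int.natCast_dvd.1 hdvd)) (not_le.2 h)
  have hvp : ¬(p : ℤ) ∣ (v : ℤ) := hlt (Int.natCast_ne_zero.2 hv) (by
    rw [Int.natAbs_natCast]
    have := Nat.le_self_pow two_ne_zero v
    have := Nat.pos_of_ne_zero (pow_ne_zero 2 hu)
    omega)
  have hKnd := not_dvd_formK hp (hlt ha (by omega)) (hlt hb (by omega)) hvp huv'
  refine hno ⟨d, hsq, hdvd p hp (dvd_mul_left _ _) fun h => hKnd ?_, ?_, ?_⟩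
  · rw [sq] at h
    exact (mul_dvd_mul_iff_right (Int.natCast_ne_zero.2 hp.ne_zero)).1 h
  · refine hle.trans ?_
    rw [abs_mul, Nat.abs_cast, show (sizeK a b : ℤ) * (p : ℤ) ^ 7 =
      sizeK a b * (p : ℤ) ^ 6 * p by ring]
    exact mul_le_mul_of_nonneg_right (formK_le huv') (Int.natCast_nonneg p)
  · refine RankTwo.transfer (D := (twistPoly (a : ℚ) b).eval (((u : ℤ) : ℚ) / ((v : ℤ) : ℚ)))
      (r := ((u : ℤ) : ℚ) / ((v : ℤ) : ℚ) ^ 8 * q) hd ?_ ?_ ?_ ?_ hI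
    · rwa [eval_twistPoly_div (Int.natCast_ne_zero.2 hv), huv']
    · exact mul_ne_zero (div_ne_zero (by exact_mod_cast hu) (pow_ne_zero _ (by exact_mod_cast hv)))
        (Int.cast_ne_zero.2 hq)
    all_goals
      rw [eval_twistPoly_div (Int.natCast_ne_zero.2 hv), huv', hdq]
      push_cast
      ring

/-- Few large primes divide one number. -/
theorem card_large_prime_divisors {P C : ℕ} (hCP : C < P) {d : ℤ} (hd : d ≠ 0)
    (hle : d.natAbs ≤ C * P ^ 7) {s : Finset ℕ}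
    (hs : ∀ p ∈ s, p.Prime ∧ P ≤ p * p ∧ (p : ℤ) ∣ d) : s.card ≤ 15 := by
  by_contra hc
  have hprod : ∏ p ∈ s, p ≤ d.natAbs :=
    Nat.le_of_dvd (Int.natAbs_pos.2 hd) (Finset.prod_primes_dvd _
      (fun p hp => (hs p hp).1.prime) fun p hp => Int.natCast_dvd.1 (hs p hp).2.2)
  have h1 : P ^ 16 ≤ (∏ p ∈ s, p) * ∏ p ∈ s, p := by
    rw [← Finset.prod_mul_distrib]
    exact (Nat.pow_le_pow_right (by omega) (by omega)).trans
      (Finset.pow_card_le_prod s _ P fun p hp => (hs p hp).2.1)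
  have h2 : d.natAbs * d.natAbs < P ^ 16 := by
    calc d.natAbs * d.natAbs ≤ (C * P ^ 7) * (C * P ^ 7) := Nat.mul_le_mul hle hle
      _ = C * C * P ^ 14 := by ring
      _ < P * P * P ^ 14 := Nat.mul_lt_mul_of_lt_of_le (Nat.mul_self_lt_mul_self hCP) le_rfl
          (pow_pos (by omega) 14)
      _ = P ^ 16 := by ring
  exact absurd (h1.trans (Nat.mul_le_mul hprod hprod)) (not_le.2 h2)

/-- The twists up to `X`. -/
def twistSet (A B : ℚ) (X : ℝ) : Set ℤ := {d | Squarefree d ∧ |(d : ℝ)| ≤ X ∧ RankTwo A B d}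

theorem finite_twistSet (A B : ℚ) (X : ℝ) : (twistSet A B X).Finite :=
  (Set.finite_Icc (-⌊X⌋) ⌊X⌋).subset fun d hd => by
    have h := abs_le.1 hd.2.1
    exact ⟨by rw [neg_le]; exact Int.le_floor.2 (by push_cast; linarith), Int.le_floor.2 h.2⟩

/-- **The count for an integral equation.** -/
theorem count_integral (ha : a ≠ 0) (hb : b ≠ 0)
    (hd : 4 * (a : ℚ) ^ 3 + 27 * (b : ℚ) ^ 2 ≠ 0) :
    ∃ c : ℝ, 0 < c ∧
      ∀ᶠ X : ℝ in atTop, c * X ^ (1 / 7 : ℝ) / Real.log X ≤ (twistSet a b X).ncard := by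
  set C := sizeK a b
  have hC : 1 ≤ C := Nat.one_le_iff_ne_zero.2 (by simp [C, sizeK, ha, hb])
  have hC' : (0 : ℝ) < C := Nat.cast_pos.2 hC
  refine ⟨(C : ℝ) ^ (-(1 / 7) : ℝ) / 96, by positivity, ?_⟩
  have hbad := finite_exceptional_primes ha hb hd
  set m : ℕ := hbad.toFinset.card + 1
  have hpnt := (FA.PNT.Summary.prime_number_theorem_progression (q := 4) (a := (1 : ZMod 4))
    isUnit_one).eventually (eventually_ge_nhds (show ((1 : ℝ) / 3) < ((4 : ℕ).totient : ℝ)⁻¹ by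
      rw [show (4 : ℕ).totient = 2 from rfl]; norm_num))
  have hlog : ∀ᶠ Y : ℝ in atTop, (Real.sqrt Y + m) * Real.log Y ≤ Y / 6 := by
    filter_upwards [(isLittleO_log_rpow_atTop (show (0 : ℝ) < 1 / 2 by norm_num)).bound
      (show (0 : ℝ) < 1 / 12 by norm_num), Real.tendsto_sqrt_atTop.eventually_ge_atTop (m : ℝ),
      eventually_ge_atTop (1 : ℝ)] with Y hY hm h1
    rw [← Real.sqrt_eq_rpow, Real.norm_eq_abs, Real.norm_eq_abs, abs_of_nonneg (Real.log_nonneg h1),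
      abs_of_nonneg (Real.sqrt_nonneg Y)] at hY
    nlinarith [Real.mul_self_sqrt (show (0 : ℝ) ≤ Y by linarith), Real.log_nonneg h1,
      Real.sqrt_nonneg Y]
  have hY : Tendsto (fun X : ℝ => (X / C) ^ (1 / 7 : ℝ)) atTop atTop :=
    (tendsto_rpow_atTop (by norm_num)).comp (tendsto_id.atTop_div_const hC')
  filter_upwards [hY.eventually hpnt, hY.eventually hlog,
    hY.eventually (eventually_ge_atTop ((C : ℝ) + 2)), eventually_ge_atTop (C : ℝ)]
    with X hπ hl hbig hXC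
  set Y := (X / C) ^ (1 / 7 : ℝ) with hYdef
  have hX1 : (1 : ℝ) ≤ C := Nat.one_le_cast.2 hC
  have hY1 : 1 < Y := by linarith
  set P := ⌊Y⌋₊
  have hCP : C < P := Nat.lt_iff_add_one_le.2 (Nat.le_floor (by push_cast; linarith))
  have hlogY : 0 < Real.log Y := Real.log_pos hY1
  set π := (Finset.Icc 1 P).filter fun p : ℕ => p.Prime ∧ (p : ZMod 4) = 1
  set T := (π \ Finset.range (Nat.sqrt P + 1)) \ hbad.toFinset
  have hd' : ∀ p ∈ T, ∃ d : ℤ, d ∈ twistSet a b X ∧ (p : ℤ) ∣ d ∧ d.natAbs ≤ C * P ^ 7 := by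
    intro p hp
    simp only [T, π, Finset.mem_sdiff, Finset.mem_filter, Finset.mem_Icc, Set.Finite.mem_toFinset,
      Set.mem_ofPred_eq] at hp
    obtain ⟨⟨⟨⟨-, hpP⟩, hpp, hp4⟩, -⟩, hgood⟩ := hp
    obtain ⟨d, hsq, hdvd, hle, hr⟩ := not_not.1 fun h => hgood ⟨hpp, hp4, h⟩
    have hle' : d.natAbs ≤ C * P ^ 7 := by
      have h' : (d.natAbs : ℤ) ≤ ((C * P ^ 7 : ℕ) : ℤ) := by
        rw [Int.natCast_natAbs]
        refine hle.trans ?_
        push_cast
        gcongr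
      exact_mod_cast h'
    refine ⟨d, ⟨hsq, ?_, hr⟩, hdvd, hle'⟩
    have hX : (C : ℝ) * (P : ℝ) ^ 7 ≤ X := by
      have h7 : Y ^ (7 : ℕ) = X / C := by
        rw [hYdef, one_div, show (7 : ℝ) = ((7 : ℕ) : ℝ) by norm_num,
          Real.rpow_inv_natCast_pow (div_nonneg (hC'.le.trans hXC) hC'.le) (by norm_num)]
      rw [← le_div_iff₀' hC', ← h7]
      exact pow_le_pow_left₀ (Nat.cast_nonneg _) (Nat.floor_le (by linarith)) 7
    rw [← Int.cast_abs, ← Int.natCast_natAbs, Int.cast_natCast]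
    exact (Nat.cast_le.2 hle').trans (by push_cast; exact hX)
  choose! g hgS hgd hgle using hd'
  have hcard : T.card ≤ 15 * (T.image g).card := by
    refine Finset.card_le_mul_card_image T 15 fun d hd => ?_
    obtain ⟨p₀, hp₀, rfl⟩ := Finset.mem_image.1 hd
    refine card_large_prime_divisors hCP (hgS p₀ hp₀).1.ne_zero (hgle p₀ hp₀) fun p hp => ?_
    obtain ⟨hpT, hpe⟩ := Finset.mem_filter.1 hp
    refine ⟨?_, ?_, hpe ▸ hgd p hpT⟩
    · simp only [T, π, Finset.mem_sdiff, Finset.mem_filter] at hpT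
      exact hpT.1.1.2.1
    · simp only [T, Finset.mem_sdiff, Finset.mem_range, not_lt] at hpT
      exact (Nat.sqrt_lt.1 hpT.1.2).le
  have hsub : ((T.image g).card : ℝ) ≤ (twistSet (a : ℚ) b X).ncard := by
    rw [← Set.ncard_coe_finset]
    refine Nat.cast_le.2 (Set.ncard_le_ncard ?_ (finite_twistSet _ _ X))
    intro d hd
    obtain ⟨p, hp, rfl⟩ := Finset.mem_image.1 (Finset.mem_coe.1 hd)
    exact hgS p hp
  have hT : π.card ≤ T.card + (Nat.sqrt P + m) := by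
    have h1 := Finset.le_card_sdiff (Finset.range (Nat.sqrt P + 1)) π
    have h2 : (π \ Finset.range (Nat.sqrt P + 1)).card - hbad.toFinset.card ≤ T.card :=
      Finset.le_card_sdiff _ _
    rw [Finset.card_range] at h1
    omega
  have hsqrt : ((Nat.sqrt P : ℕ) : ℝ) ≤ Real.sqrt Y := Real.nat_sqrt_le_real_sqrt.trans
    (Real.sqrt_le_sqrt (Nat.floor_le (by linarith)))
  have hπ' : Y / 3 ≤ (π.card : ℝ) * Real.log Y := by
    have := (le_div_iff₀ (by linarith : (0 : ℝ) < Y)).1 hπ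
    linarith
  have hT' : Y / 6 ≤ (T.card : ℝ) * Real.log Y := by
    have : (π.card : ℝ) ≤ T.card + ((Nat.sqrt P : ℕ) + m : ℝ) := by exact_mod_cast hT
    nlinarith
  have hXpos : 0 < X := hC'.trans_le hXC
  have hlogle : Real.log Y ≤ Real.log X := by
    refine Real.log_le_log (by linarith) ?_
    rw [hYdef]
    exact (Real.rpow_le_self_of_one_le ((one_le_div hC').2 hXC) (by norm_num)).trans
      (div_le_self hXpos.le hX1)
  rw [div_mul_eq_mul_div, Real.rpow_neg hC'.le, inv_mul_eq_div,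
    ← Real.div_rpow hXpos.le hC'.le, ← hYdef, div_le_iff₀ (hlogY.trans_le hlogle)]
  have : (T.card : ℝ) ≤ 15 * (T.image g).card := by exact_mod_cast hcard
  nlinarith [mul_le_mul_of_nonneg_left hlogle (Nat.cast_nonneg (α := ℝ) (twistSet (a : ℚ) b X).ncard)]

/-- **The count for every elliptic curve with invariant not `0` or `1728`.** -/
theorem count_quadTwists (A B : ℚ) (hA : A ≠ 0) (hB : B ≠ 0)
    (hd : 4 * A ^ 3 + 27 * B ^ 2 ≠ 0) :
    ∃ c : ℝ, 0 < c ∧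
      ∀ᶠ X : ℝ in atTop, c * X ^ (1 / 7 : ℝ) / Real.log X ≤ (twistSet A B X).ncard := by
  set k : ℤ := (A.den * B.den : ℤ)
  have hk : (k : ℚ) ≠ 0 := by simp [k]
  obtain ⟨a, ha⟩ : ∃ a : ℤ, (a : ℚ) = k ^ 4 * A := ⟨(A.den : ℤ) ^ 3 * (B.den : ℤ) ^ 4 * A.num, by
    have := Rat.mul_den_eq_num A
    simp only [k]; push_cast; rw [← this]; ring⟩
  obtain ⟨b, hb⟩ : ∃ b : ℤ, (b : ℚ) = k ^ 6 * B := ⟨(A.den : ℤ) ^ 6 * (B.den : ℤ) ^ 5 * B.num, by
    have := Rat.mul_den_eq_num B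
    simp only [k]; push_cast; rw [← this]; ring⟩
  have hd' : 4 * (a : ℚ) ^ 3 + 27 * (b : ℚ) ^ 2 ≠ 0 := by
    rw [ha, hb, show 4 * ((k : ℚ) ^ 4 * A) ^ 3 + 27 * ((k : ℚ) ^ 6 * B) ^ 2 =
      (k : ℚ) ^ 12 * (4 * A ^ 3 + 27 * B ^ 2) by ring]
    exact mul_ne_zero (pow_ne_zero _ hk) hd
  obtain ⟨c, hc, h⟩ := count_integral (a := a) (b := b)
    (Int.cast_ne_zero.1 (ha ▸ mul_ne_zero (pow_ne_zero _ hk) hA))
    (Int.cast_ne_zero.1 (hb ▸ mul_ne_zero (pow_ne_zero _ hk) hB)) hd'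
  refine ⟨c, hc, h.mono fun X hX => hX.trans (Nat.cast_le.2 (Set.ncard_le_ncard ?_
    (finite_twistSet A B X)))⟩
  rintro d ⟨hsq, hle, hr⟩
  refine ⟨hsq, hle, hr.transfer hd' (Int.cast_ne_zero.2 hsq.ne_zero) hk ?_ ?_⟩
  · rw [ha]; ring
  · rw [hb]; ring

end FA.TwistCount
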